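/-
S15, (DESC) layer, row 624 (helper60): THREE of the five clauses of
`InterfacesDesc80.DescData`, verbatim, for a Hecke projector `E` of the Eisenstein system
over the primes `q ∤ 6 p ℓ r`:

* `isEisProj`   : `IsEisProj p ℓ r E`                       (L0-E)
* `finite_eisG` : `Finite (eisG p r E)`                     (L0)
* `flagU`       : `FlagU p r E complexConjugation`          (JH)

The spec on `E` is `HeckeProj63.IsHeckeProj (heckeFam p (sixFam p ℓ r)) (eisSys _) r E`
(level `r`); a projector of any level `r ^ j`, `j ≥ 1`, qualifies (`isHeckeProj_of_pow`).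

Inputs on main: `S15P/EisPiece63` (L0 ⟶ JH), `S15P/JHFlagTwo13.flagTwo`,
`S15P/JHFlagOddInst73.flagOdd`, `S15P/InterfacesDesc80`.
-/
import Mathlib
import Fermat.Agent.S15P.InterfacesDesc80
import Fermat.Agent.S15P.EisPiece63
import Fermat.Agent.S15P.JHFlagTwo13
import Fermat.Agent.S15P.JHFlagOddInst73

set_option autoImplicit false

namespace Fermat.Agent.S15P.Desc.EisFlag60

open ModularCurve Fermat.Agent.ESJ
open Fermat.Agent.S15P.HeckeProj63 Fermat.Agent.S15P.InterfacesDesc80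

variable {p ℓ r : ℕ} [NeZero p] {E : Module.End ℤ (JZero p)}

/-- A Hecke projector of level `r ^ j`, `j ≥ 1`, is a Hecke projector of level `r`. -/
theorem isHeckeProj_of_pow {j : ℕ} (hj : j ≠ 0)
    (hE : IsHeckeProj (heckeFam p (sixFam p ℓ r)) (eisSys (sixFam p ℓ r)) (r ^ j) E) :
    IsHeckeProj (heckeFam p (sixFam p ℓ r)) (eisSys (sixFam p ℓ r)) r E := by
  obtain ⟨k, rfl⟩ := Nat.exists_eq_succ_of_ne_zero hj
  rw [pow_succ'] at hE
  exact hE.of_mul

/-- `G = E J[r]` is the generalised Eisenstein eigenspace of `J[r]`. -/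
theorem eisG_eq_genEig
    (hE : IsHeckeProj (heckeFam p (sixFam p ℓ r)) (eisSys (sixFam p ℓ r)) r E) :
    eisG p r E = genEig (heckeFam p (sixFam p ℓ r)) (eisSys (sixFam p ℓ r)) r := by
  ext g
  rw [mem_eisG, hE.mem_iff_exists]

/-- **(L0-E)**: the clause `IsEisProj p ℓ r E` of `DescData`. -/
theorem isEisProj
    (hE : IsHeckeProj (heckeFam p (sixFam p ℓ r)) (eisSys (sixFam p ℓ r)) r E) :
    IsEisProj p ℓ r E := by
  refine ⟨mem_adjoin_of_mem_Hk_sixFam hE.mem_Hk, fun x hx => hE.idem hx, fun c₁ hc₁ hT => ?_⟩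
  refine hE.eq_of_eisenstein c₁ hc₁ (fun q hq => hT q (fun h => ?_))
  exact sixFam_not_dvd q hq (h ▸ dvd_rfl)

/-- **(L0)**: the clause `Finite (eisG p r E)` of `DescData`. -/
theorem finite_eisG (hr : r.Prime)
    (hE : IsHeckeProj (heckeFam p (sixFam p ℓ r)) (eisSys (sixFam p ℓ r)) r E) :
    Finite (eisG p r E) := by
  rw [eisG_eq_genEig hE]
  have h := finite_genEig_jZero p (sixFam p ℓ r) hr (eisSys (sixFam p ℓ r)) 1
  rwa [pow_one] at h

/-- `G = E J[r]` is an Eisenstein piece of level `r` away from `{2, 3, ℓ}`. -/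
theorem isEisPiece_eisG (hr : r.Prime) (hℓ : ℓ.Prime)
    (hE : IsHeckeProj (heckeFam p (sixFam p ℓ r)) (eisSys (sixFam p ℓ r)) r E) :
    JH.IsEisPiece p r 1 ({2, 3, ℓ} : Finset ℕ) (eisG p r E) := by
  rw [eisG_eq_genEig hE]
  have h := isEisPiece_genEig_six p r 1 hr hℓ
  rwa [pow_one] at h

/-- **(JH)**: the clause `FlagU p r E c` of `DescData`, with `c` the Prelude's complex
conjugation. -/
theorem flagU (hr : r.Prime) (hℓ : ℓ.Prime)
    (hE : IsHeckeProj (heckeFam p (sixFam p ℓ r)) (eisSys (sixFam p ℓ r)) r E) :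
    FlagU p r E complexConjugation := by
  have hX := isEisPiece_eisG hr hℓ hE
  refine ⟨fun h2 S hS hSst hne => ?_, fun h2 S hS hSst hne => ?_⟩
  · subst h2
    exact JHFlagTwo13.flagTwo p _ _ 1 hX S hS hSst hne
  · exact JHFlagOddInst73.flagOdd p r hr h2 _ _ 1 hX S hS hSst hne

end Fermat.Agent.S15P.Desc.EisFlag60
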