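/-
S15, (DESC) layer, row 624 (helper60): `DescDataP` from its two remaining clauses.

`descDataP_of` : if for every `(p, ℓ, r)` (`r ≠ p`) there are a Hecke projector `E` of the
Eisenstein system over the primes `q ∤ 6 p ℓ r` (level `r`) and an element `σ` with the clauses
`StepH p r E σ complexConjugation` and `LocalCount p r E σ complexConjugation`, then
`InterfacesDesc80b.DescDataP` holds.  (The clauses `IsEisProj`, `Finite (eisG p r E)`, `FlagU`
are `S15P/Desc/EisFlag60`.)
-/
import Mathlib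
import Fermat.Agent.S15P.InterfacesDesc80b
import Fermat.Agent.S15P.Desc.EisFlag60

set_option autoImplicit false

namespace Fermat.Agent.S15P.Desc.DataP60

open ModularCurve Fermat.Agent.ESJ
open Fermat.Agent.S15P.HeckeProj63 Fermat.Agent.S15P.InterfacesDesc80
open Fermat.Agent.S15P.InterfacesDesc80b Fermat.Agent.S15P.Desc.EisFlag60

/-- **(DESC)**: `DescDataP` from a Hecke projector with the clauses `StepH` and `LocalCount`. -/
theorem descDataP_of
    (h : ∀ (p : ℕ) [NeZero p], p.Prime → p ∉ ({2, 3, 5, 7, 13} : Finset ℕ) →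
      ∀ ℓ : ℕ, ℓ.Prime → 5 ≤ ℓ → ℓ ≠ p → ∀ r : ℕ, r.Prime → r ≠ p →
      ∃ (E : Module.End ℤ (JZero p)) (σ : GQ),
        IsHeckeProj (heckeFam p (sixFam p ℓ r)) (eisSys (sixFam p ℓ r)) r E ∧
        StepH p r E σ complexConjugation ∧ LocalCount p r E σ complexConjugation) :
    DescDataP := by
  intro p _ hp hp' ℓ hℓ h5 hℓp r hr hrp c₁ _ _ _ _
  obtain ⟨E, σ, hE, hStep, hCount⟩ := h p hp hp' ℓ hℓ h5 hℓp r hr hrp
  exact ⟨E, σ, complexConjugation, isEisProj hE, finite_eisG hr hE, flagU hr hℓ hE, hStep,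
    hCount⟩

end Fermat.Agent.S15P.Desc.DataP60
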