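/-
S15, (DESC) layer, rows 588 / 624 (helper40): **the level hypothesis `Hlev` of L7**
(`PSideInst92.card_kumRange_le`, `PSideInst71.card_W_le`), hypothesis-free.

For a Hecke projector `E` of level `r` of the Eisenstein system over the primes `q ∤ 6 p ℓ r`,
with `#E J[r] = r ^ (2 d)`, and ONE element `σ` of an inertia group at `p` (`σ √p = -√p` if
`r = 2`; `σ` moves the `r`-th roots of `p` if `r` is odd), `c` = complex conjugation: for every
`n > 0` the Hecke projector `En` of level `r ^ n` is Galois-equivariant, agrees with `E` on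
`J[r]`, its image `X_n = En J[r ^ n]` has the property L5 (`σ`- and `c`-fixed ⟹ Galois-fixed)
and `#(c - 1) X_n ≤ r ^ (d n)`.

* `fixed_genEig` : L5 on the generalised Eisenstein eigenspace of `J[r ^ n]`
  (`MainCount40.fixed_of_two / fixed_of_odd` with `G := Z := X_n`, the flags of (JH), and the
  level-`n` steps `StepH40.step_two`, `StepInst40.step_triv`, `StepInst40.step_mu`);
* `hlev`         : the four clauses of `Hlev`, verbatim.
-/
import Mathlib
import Fermat.Agent.S15P.Desc.StepH40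
import Fermat.Agent.S15P.Real.ConjFinal47
import Fermat.Agent.S15P.HeckeWord63
import Fermat.Agent.S15P.JHFlagTwo13
import Fermat.Agent.S15P.JHFlagOddInst73

set_option autoImplicit false

namespace Fermat.Agent.S15P.Desc.HLev40

open AlgebraicCurve ModularCurve Fermat.Agent.ESJ
open Fermat.Agent.S15P.HeckeProj63 Fermat.Agent.S15P.InterfacesDesc80
open Fermat.Agent.S15P.MainCount40 Fermat.Agent.S15P.StepInst40

local notation "Qb" => AlgebraicClosure ℚ
local notation "GQ" => (AlgebraicClosure ℚ ≃ₐ[ℚ] AlgebraicClosure ℚ)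

/-- An Eisenstein piece is finite. -/
theorem finite_piece (p r n : ℕ) [NeZero p] (hr : r.Prime) (B : Finset ℕ)
    (X : AddSubgroup (JZero p)) (hX : Fermat.Agent.S15P.JH.IsEisPiece p r n B X) : Finite X :=
  ((Fermat.Agent.MW.WMW.JZeroInst.finite_torsion p (r ^ n) (pow_pos hr.pos n)).subset
    (fun x hx => hX.1 x hx)).to_subtype

/-- **L5 at level `n`**: a point of the generalised Eisenstein eigenspace of `J₀(p)[r ^ n]` fixed
by `σ` and by complex conjugation is fixed by `G_ℚ`. -/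
theorem fixed_genEig (p ℓ r : ℕ) [NeZero p] (hp : p.Prime) (hp2 : p ≠ 2) (hr : r.Prime)
    (hrp : r ≠ p) (hℓ : ℓ.Prime) (n : ℕ)
    (A : ValuationSubring Qb) (hA : A.LiesOverPrime p) (σ : GQ)
    (hσ : σ ∈ A.inertiaSubgroupIn ℚ)
    (hσ2 : r = 2 → ∀ s : Qb, s ^ 2 = (p : Qb) → σ s = -s)
    (hσr : r ≠ 2 → ∀ π : Qb, π ^ r = (p : Qb) → σ π ≠ π)
    {z : JZero p}
    (hz : z ∈ genEig (heckeFam p (sixFam p ℓ r)) (eisSys (sixFam p ℓ r)) (r ^ n))
    (hσz : σ • z = z) (hcz : complexConjugation • z = z) : ∀ γ : GQ, γ • z = z := by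
  have hX : Fermat.Agent.S15P.JH.IsEisPiece p r n ({2, 3, ℓ} : Finset ℕ)
      (genEig (heckeFam p (sixFam p ℓ r)) (eisSys (sixFam p ℓ r)) (r ^ n)) :=
    isEisPiece_genEig_six p r n hr hℓ
  generalize genEig (heckeFam p (sixFam p ℓ r)) (eisSys (sixFam p ℓ r)) (r ^ n) = X at hX hz
  have : Finite X := finite_piece p r n hr _ X hX
  have hZG : ∀ z ∈ X, ∀ γ : GQ, γ • z - z ∈ X := fun z hz γ => X.sub_mem (hX.2.1 γ z hz) hz
  have hzk : ∀ z ∈ X, ∀ τ : GQ, τ • (r ^ n • z) = r ^ n • z := by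
    intro z hz τ
    rw [hX.1 z hz]
    exact smul_zero (A := JZero p) τ
  by_cases h2 : r = 2
  · subst h2
    exact fixed_of_two X X hZG σ complexConjugation
      (Fermat.Agent.S15P.JHFlagTwo13.flagTwo p _ X n hX)
      (fun S _ hS y hyG hyS h2y hy z hz hzy hσz hcz =>
        Fermat.Agent.S15P.Desc.StepH40.step_two p hp hp2 n X hX.1 A hA σ hσ (hσ2 rfl) S hS y hyG
          hyS h2y hy z (hzk z hz) hzy hσz hcz)
      hz hσz hcz
  · have : Fact r.Prime := ⟨hr⟩
    obtain ⟨P, hP⟩ := Fermat.Agent.Lib.FrobeniusExists.exists_liesOverPrime hr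
    exact fixed_of_odd r (hr.eq_two_or_odd'.resolve_left h2) X X hZG σ complexConjugation
      (Fermat.Agent.S15P.JHFlagOddInst73.flagOdd p r hr h2 _ X n hX)
      (fun S _ hS y hyG hyS hry hy z hz hzy hσz =>
        step_triv p r hp h2 hrp n X hX.1 A hA σ hσ (hσr h2) S hS y hyG hyS hry hy z (hzk z hz)
          hzy hσz)
      (fun S hSG hS y hyG hyS hry hy _ z hz hzy hσz =>
        step_mu p r hp h2 hrp n X hX.1 _ n hX P hP A hA σ hσ (hσr h2) S hSG hS y hyG hyS hry hy z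
          (hzk z hz) hzy hσz)
      hz hσz hcz

/-- **`Hlev`**: the level hypothesis of L7 (`PSideInst92.card_kumRange_le`,
`PSideInst71.card_W_le`) for the Eisenstein projector, verbatim. -/
theorem hlev (p ℓ r : ℕ) [NeZero p] (hp : p.Prime) (hp2 : p ≠ 2) (hr : r.Prime) (hrp : r ≠ p)
    (hℓ : ℓ.Prime) (E : Module.End ℤ (JZero p))
    (hE : IsHeckeProj (heckeFam p (sixFam p ℓ r)) (eisSys (sixFam p ℓ r)) r E)
    (d : ℕ) (hd : Nat.card (eisG p r E) = r ^ (2 * d))
    (A : ValuationSubring Qb) (hA : A.LiesOverPrime p) (σ : GQ)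
    (hσ : σ ∈ A.inertiaSubgroupIn ℚ)
    (hσ2 : r = 2 → ∀ s : Qb, s ^ 2 = (p : Qb) → σ s = -s)
    (hσr : r ≠ 2 → ∀ π : Qb, π ^ r = (p : Qb) → σ π ≠ π) :
    ∀ n : ℕ, 0 < n → ∃ En : JZero p →+ JZero p,
      (∀ (γ : GQ) (x : JZero p), En (γ • x) = γ • En x) ∧
      (∀ x : JZero p, r • x = 0 → En x = E.toAddMonoidHom x) ∧
      (∀ x : JZero p, r ^ n • x = 0 → σ • En x = En x → complexConjugation • En x = En x →
        ∀ g : GQ, g • En x = En x) ∧
      Nat.card {u : JZero p // ∃ x, r ^ n • x = 0 ∧ u = complexConjugation • En x - En x}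
        ≤ r ^ (d * n) := by
  intro n hn
  have hP : ∀ q : Nat.Primes, sixFam p ℓ r q → ¬ (q : ℕ) ∣ p := fun q hq => sixFam_not_dvd q hq
  obtain ⟨F, hF⟩ := exists_heckeProj p (sixFam p ℓ r) hP hr (eisSys (sixFam p ℓ r)) n
  have hF1 : IsHeckeProj (heckeFam p (sixFam p ℓ r)) (eisSys (sixFam p ℓ r)) r F :=
    Fermat.Agent.S15P.Desc.EisFlag60.isHeckeProj_of_pow hn.ne' hF
  have hFadj : F ∈ Algebra.adjoin ℤ (heckeOperatorBar p '' {q | sixFam p ℓ r q}) := by
    rw [← Hk_heckeFam_eq]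
    exact hF.mem_Hk
  have hd' : Nat.card {g : JZero p // ∃ x : JZero p, r • x = 0 ∧ g = F x} = r ^ (2 * d) := by
    rw [← hd]
    refine Nat.card_congr (Equiv.subtypeEquivRight fun g => ?_)
    rw [← hF1.mem_iff_exists]
    show _ ↔ g ∈ eisG p r E
    rw [mem_eisG, hE.mem_iff_exists]
  refine ⟨F.toAddMonoidHom, fun γ x => heckeProj_equivariant p _ hF γ x, fun x hx => ?_,
    fun x hx hσx hcx => ?_, ?_⟩
  · exact IsHeckeProj.unique (fun i i' x hx => heckeFam_comm p _ hP hr 1 i i' x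
      (by rwa [pow_one])) hF1 hE hx
  · exact fixed_genEig p ℓ r hp hp2 hr hrp hℓ n A hA σ hσ hσ2 hσr (hF.map_mem hx) hσx hcx
  · exact Fermat.Agent.S15P.Real.ConjFinal47.card_conj_sub_le_final p r hr n hn
      {q | sixFam p ℓ r q} (fun q hq => sixFam_not_dvd q hq) F hFadj (fun x hx => hF.idem hx) d hd'

end Fermat.Agent.S15P.Desc.HLev40
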