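/-
S15, (DESC) layer, row 624 (helper40): **the term `descDataP : InterfacesDesc80b.DescDataP`**.

* `localCount` : the clause `LocalCount p r E σ complexConjugation` for a Hecke projector `E`
  of level `r ^ 2` of the Eisenstein system over the primes `q ∤ 6 p ℓ r` and an element `σ` of
  an inertia group at `p` (`σ √p = -√p` if `r = 2`; `σ` moves the `r`-th roots of `p` if `r`
  is odd):  `V` from L6 (`HVInst68` + `ConjFinal47`), `W = PSideInst92.kumRange` with
  `#W ≤ r ^ d` from L7 (`PSideInst92.card_kumRange_le`, S17) and `HLev40.hlev`;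
* `descDataP`  : `DataP60.descDataP_of` at `E` (level `r ^ 2`), `σ` (`StepH96.exists_sigma`),
  `StepH40.stepH`, `localCount`;
* `descOutP`   : `Interfaces80b.DescOutP` (`InterfacesDesc80b.descOutP_of_descDataP` with S17,
  divisibility and Hecke–Galois commutation from main).
-/
import Mathlib
import Fermat.Agent.S15P.Desc.HLev40
import Fermat.Agent.S15P.Desc.DataP60
import Fermat.Agent.S15P.HVInst68
import Fermat.Agent.S15P.PSideInst92
import Fermat.Agent.S15P.StepH96
import Fermat.Agent.S17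
import Fermat.Agent.ESJ.Jac.Main

set_option autoImplicit false

namespace Fermat.Agent.S15P.Desc.DescDataP40

open AlgebraicCurve ModularCurve Fermat.Agent.ESJ
open Fermat.Agent.S15P.HeckeProj63 Fermat.Agent.S15P.InterfacesDesc80
open Fermat.Agent.S15P.MainCount40

local notation "Qb" => AlgebraicClosure ℚ
local notation "GQ" => (AlgebraicClosure ℚ ≃ₐ[ℚ] AlgebraicClosure ℚ)

/-- **The clause `LocalCount`** of `DescData`. -/
theorem localCount (p ℓ r : ℕ) [NeZero p] (hp : p.Prime) (hp5 : 5 ≤ p) (hr : r.Prime)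
    (hrp : r ≠ p) (hℓ : ℓ.Prime) (E : Module.End ℤ (JZero p))
    (hE2 : IsHeckeProj (heckeFam p (sixFam p ℓ r)) (eisSys (sixFam p ℓ r)) (r ^ 2) E)
    (A : ValuationSubring Qb) (hA : A.LiesOverPrime p) (σ : GQ)
    (hσ : σ ∈ A.inertiaSubgroupIn ℚ)
    (hσ2 : r = 2 → ∀ s : Qb, s ^ 2 = (p : Qb) → σ s = -s)
    (hσr : r ≠ 2 → ∀ π : Qb, π ^ r = (p : Qb) → σ π ≠ π) :
    LocalCount p r E σ complexConjugation := by
  have hp2 : p ≠ 2 := by omega
  have hE : IsHeckeProj (heckeFam p (sixFam p ℓ r)) (eisSys (sixFam p ℓ r)) r E :=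
    Fermat.Agent.S15P.Desc.EisFlag60.isHeckeProj_of_pow two_ne_zero hE2
  have hS : ∀ q ∈ {q : Nat.Primes | sixFam p ℓ r q}, ¬ (q : ℕ) ∣ p :=
    fun q hq => sixFam_not_dvd q hq
  have hF : E ∈ Algebra.adjoin ℤ (heckeOperatorBar p '' {q : Nat.Primes | sixFam p ℓ r q}) := by
    rw [← Hk_heckeFam_eq]
    exact hE.mem_Hk
  have hGal : HeckeGaloisCommute p := Fermat.Agent.ESJ.Cong.heckeGaloisCommute p
  have hW : ∀ d : ℕ, Nat.card (eisG p r E) = r ^ (2 * d) →
      ∃ W : AddSubgroup (JZero p), Finite W ∧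
        (∀ z ∈ Zdiv GQ r (Mfix p) (eisG p r E), σ • z - z ∈ W) ∧ Nat.card W ≤ r ^ d := by
    intro d hd
    refine ⟨Fermat.Agent.S15P.PSideInst92.kumRange p r E.toAddMonoidHom σ,
      Fermat.Agent.S15P.PSideInst92.finite_kumRange p r hr.pos _ σ, fun z hz => ?_, ?_⟩
    · refine Fermat.Agent.S15P.PSideInst92.sub_mem_kumRange p r (eisG p r E) (fun g hg => ?_) z
        hz.1 (hz.2 σ)
      rw [Fermat.Agent.S15P.Desc.EisFlag60.eisG_eq_genEig hE] at hg
      exact hE.map_eq hg
    · exact Fermat.Agent.S15P.PSideInst92.card_kumRange_le p r hp hp5 hr hrp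
        (Fermat.Agent.S17.result p hp hp5) A hA σ complexConjugation hσ E.toAddMonoidHom d
        (Fermat.Agent.S15P.Desc.HLev40.hlev p ℓ r hp hp2 hr hrp hℓ E hE d hd A hA σ hσ hσ2 hσr)
  by_cases h2 : r = 2
  · subst h2
    exact Fermat.Agent.S15P.HVInst68.localCount_two hGal
      (fun x => Fermat.Agent.MW.DivA.jZero_divisible p two_pos x)
      (Fermat.Agent.ESJ.torsionFinite p 4 (by norm_num))
      (fun S hS E hE hidem =>
        Fermat.Agent.S15P.Real.ConjFinal47.exists_card_eq_final p 2 Nat.prime_two S hS E hE hidem)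
      (fun S hS F hF hidem d hd =>
        Fermat.Agent.S15P.Real.ConjFinal47.card_conj_sub_two_le_final p S hS F hF hidem d hd)
      _ hS E hF (fun x hx => hE2.idem (by
        have e : (2 : ℕ) ^ 2 = 4 := by norm_num
        rw [e]
        exact hx)) σ hW
  · exact Fermat.Agent.S15P.HVInst68.localCount_odd r hr h2 hGal
      (Fermat.Agent.ESJ.torsionFinite p r hr.pos)
      (fun S hS E hE hidem =>
        Fermat.Agent.S15P.Real.ConjFinal47.exists_card_eq_final p r hr S hS E hE hidem)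
      (fun S hS F hF hidem d hd =>
        Fermat.Agent.S15P.Real.ConjFinal47.card_conj_sub_le_final p r hr 1 one_pos S hS F hF
          hidem d hd)
      _ hS E hF (fun x hx => hE.idem hx) σ hW

/-- **(DESC)**: the concrete descent data, `InterfacesDesc80b.DescDataP`. -/
theorem descDataP : Fermat.Agent.S15P.InterfacesDesc80b.DescDataP := by
  refine Fermat.Agent.S15P.Desc.DataP60.descDataP_of
    (fun p _ hp hp' ℓ hℓ _ _ r hr hrp => ?_)
  have hp5 : 5 ≤ p := by
    have h2 := hp.two_le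
    by_contra hlt
    have hcases : p = 2 ∨ p = 3 ∨ p = 4 := by omega
    rcases hcases with h | h | h
    · exact hp' (by rw [h]; decide)
    · exact hp' (by rw [h]; decide)
    · rw [h] at hp
      exact absurd hp (by norm_num)
  have hp2 : p ≠ 2 := by omega
  obtain ⟨E, hE2⟩ := exists_heckeProj p (sixFam p ℓ r) (fun q hq => sixFam_not_dvd q hq) hr
    (eisSys (sixFam p ℓ r)) 2
  have hE : IsHeckeProj (heckeFam p (sixFam p ℓ r)) (eisSys (sixFam p ℓ r)) r E :=
    Fermat.Agent.S15P.Desc.EisFlag60.isHeckeProj_of_pow two_ne_zero hE2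
  obtain ⟨A, hA⟩ := Fermat.Agent.Lib.FrobeniusExists.exists_liesOverPrime hp
  obtain ⟨σ, hσ, hσr, hσ2⟩ := Fermat.Agent.S15P.StepH96.exists_sigma hp A hA r hr hrp
  exact ⟨E, σ, hE,
    Fermat.Agent.S15P.Desc.StepH40.stepH p ℓ r hp hp2 hr hrp hℓ E hE A hA σ hσ hσ2 (fun _ => hσr),
    localCount p ℓ r hp hp5 hr hrp hℓ E hE2 A hA σ hσ hσ2 (fun _ => hσr)⟩

/-- **(DESC), output**: the top interface Prop `Interfaces80b.DescOutP` (the third term of
`TopSeam3_5.s15_of_layers3P` / `TopSeam80b.s15_of_layersP`). -/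
theorem descOutP : Fermat.Agent.S15P.Interfaces80b.DescOutP :=
  Fermat.Agent.S15P.InterfacesDesc80b.descOutP_of_descDataP
    (fun p _ hp hp5 => Fermat.Agent.S17.result p hp hp5)
    (fun p _ _ hn x => Fermat.Agent.MW.DivA.jZero_divisible p hn x)
    (fun p _ => Fermat.Agent.ESJ.Cong.heckeGaloisCommute p) descDataP

end Fermat.Agent.S15P.Desc.DescDataP40
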