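/-
S15, (DESC) layer, row 624 (helper40): **the clause `StepH` of `InterfacesDesc80.DescData`**,
for a Hecke projector `E` of the Eisenstein system over the primes `q ∤ 6 p ℓ r` and ONE
element `σ` of an inertia group at `p` (`σ √p = -√p` if `r = 2`; `σ` moves the `r`-th roots of
`p` if `r` is odd), `c` = the Prelude's complex conjugation.

* `step_two` : the hypothesis `H` (`r = 2`) on `J₀(p)` at any level `2 ^ k`
  (`StepChar96.step_two` + `StepK40.step_two_h2` + `GoodDiv85.inertia_smul_eq_div`);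
* `stepH`    : the clause, verbatim (`r = 2`: `step_two`; `r ≠ 2`: `StepInst40.step_triv`,
  `StepInst40.step_mu`, at level `k = 1`).
-/
import Mathlib
import Fermat.Agent.S15P.StepInst40
import Fermat.Agent.S15P.StepChar96
import Fermat.Agent.S15P.InterfacesDesc80
import Fermat.Agent.S15P.Desc.EisFlag60
import Fermat.Agent.Lib.FrobeniusExists

set_option autoImplicit false

namespace Fermat.Agent.S15P.Desc.StepH40

open AlgebraicCurve ModularCurve Fermat.Agent.ESJ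
open Fermat.Agent.S15P.HeckeProj63 Fermat.Agent.S15P.InterfacesDesc80
open Fermat.Agent.S15P.MainCount40 Fermat.Agent.S15P.StepInst40

local notation "Qb" => AlgebraicClosure ℚ
local notation "GQ" => (AlgebraicClosure ℚ ≃ₐ[ℚ] AlgebraicClosure ℚ)

/-- **`H` on `J₀(p)`** (`r = 2`), at any level `2 ^ k`. -/
theorem step_two (p : ℕ) [NeZero p] (hp : p.Prime) (hp2 : p ≠ 2) (k : ℕ)
    (G : AddSubgroup (JZero p)) (hGk : ∀ g ∈ G, 2 ^ k • g = 0)
    (A : ValuationSubring Qb) (hA : A.LiesOverPrime p) (σ : GQ)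
    (hσ : σ ∈ A.inertiaSubgroupIn ℚ) (hσp : ∀ s : Qb, s ^ 2 = (p : Qb) → σ s = -s)
    (S : AddSubgroup (JZero p)) (hS : ∀ (γ : GQ) (x : JZero p), x ∈ S → γ • x ∈ S)
    (y : JZero p) (hyG : y ∈ G) (hyS : y ∉ S) (h2y : 2 • y ∈ S)
    (hy : ∀ γ : GQ, γ • y - y ∈ S)
    (z : JZero p) (hzk : ∀ τ : GQ, τ • (2 ^ k • z) = 2 ^ k • z)
    (hzy : ∀ γ : GQ, γ • z - z ∈ S ∨ γ • z - z - y ∈ S)
    (hσz : σ • z - z ∈ S) (hcz : complexConjugation • z - z ∈ S) :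
    ∀ γ : GQ, γ • z - z ∈ S := by
  have : Fact (Nat.Prime 2) := ⟨Nat.prime_two⟩
  have h2N : ¬ 2 ∣ p := fun h => hp2 ((Nat.prime_dvd_prime_iff_eq Nat.prime_two hp).mp h).symm
  have hzy' : ∀ γ : GQ, ∃ j : ℤ, γ • z - z - j • y ∈ S := by
    intro γ
    rcases hzy γ with h | h
    · exact ⟨0, by rw [zero_zsmul, sub_zero]; exact h⟩
    · exact ⟨1, by rw [one_zsmul]; exact h⟩
  obtain ⟨δ, hδ⟩ := exists_coord (Γ := GQ) 2 S y h2y z hzy'
  have hiff := coord_eq_zero_iff (Γ := GQ) 2 S y hyS h2y z δ hδ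
  obtain ⟨L, hL, hLfix⟩ :=
    Fermat.Agent.ESJ.Jac.FiniteLevel.exists_finiteLevel_of_finite p {z} (Set.finite_singleton z)
  have := hL
  obtain ⟨P, hP⟩ := Fermat.Agent.Lib.FrobeniusExists.exists_liesOverPrime Nat.prime_two
  refine Fermat.Agent.S15P.StepChar96.step_two hp hp2 S hS y hyS h2y hy z hzy L
    (fun s hs => hLfix s (fun x hx => (IntermediateField.mem_fixingSubgroup_iff L s).mp hs x hx)
      z rfl) ?_ P ?_ A hA σ hσ hσp hσz hcz
  · intro ℓ hℓ hℓ2 hℓp B hB τ hτ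
    have hℓN : ¬ ℓ ∣ p := fun h => hℓp ((Nat.prime_dvd_prime_iff_eq hℓ hp).mp h)
    have hℓr' : ¬ ℓ ∣ 2 ^ k := fun h =>
      hℓ2 ((Nat.prime_dvd_prime_iff_eq hℓ Nat.prime_two).mp (hℓ.dvd_of_dvd_pow h))
    have h1 := Fermat.Agent.S15P.GoodDiv85.inertia_smul_eq_div p ℓ hℓ hℓN B hB (2 ^ k)
      (pow_ne_zero k two_ne_zero) hℓr' τ hτ z (hzk τ)
    rw [h1, sub_self]
    exact S.zero_mem
  · intro θ h1 h2
    exact Fermat.Agent.S15P.StepK40.step_two_h2 h2N k z hzk S hS y (hGk y hyG) hyS h2y hy δ hδ P hP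
      θ h1 (fun τ hτ => (h2 τ hτ).trans (hiff τ).symm)

/-- `G = E J[r]` is killed by `r`. -/
theorem nsmul_eisG (p r : ℕ) [NeZero p] (E : Module.End ℤ (JZero p)) :
    ∀ g ∈ eisG p r E, r ^ 1 • g = 0 := by
  rintro g ⟨x, hx, rfl⟩
  rw [pow_one, ← map_nsmul, hx, map_zero]

/-- **The clause `StepH`** of `DescData`. -/
theorem stepH (p ℓ r : ℕ) [NeZero p] (hp : p.Prime) (hp2 : p ≠ 2) (hr : r.Prime) (hrp : r ≠ p)
    (hℓ : ℓ.Prime) (E : Module.End ℤ (JZero p))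
    (hE : IsHeckeProj (heckeFam p (sixFam p ℓ r)) (eisSys (sixFam p ℓ r)) r E)
    (A : ValuationSubring Qb) (hA : A.LiesOverPrime p) (σ : GQ)
    (hσ : σ ∈ A.inertiaSubgroupIn ℚ)
    (hσ2 : r = 2 → ∀ s : Qb, s ^ 2 = (p : Qb) → σ s = -s)
    (hσr : r ≠ 2 → ∀ π : Qb, π ^ r = (p : Qb) → σ π ≠ π) :
    StepH p r E σ complexConjugation := by
  have hzk : ∀ z ∈ Zdiv GQ r (Mfix p) (eisG p r E), ∀ τ : GQ, τ • (r ^ 1 • z) = r ^ 1 • z := by
    intro z hz τ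
    rw [pow_one]
    exact hz.1 τ
  refine ⟨fun h2 S _ hS y hyG hyS h2y hy z hz hzy hσz hcz => ?_, fun h2 => ⟨?_, ?_⟩⟩
  · subst h2
    exact step_two p hp hp2 1 (eisG p 2 E) (nsmul_eisG p 2 E) A hA σ hσ (hσ2 rfl) S hS y hyG hyS
      h2y hy z (hzk z hz) hzy hσz hcz
  · intro S _ hS y hyG hyS hry hy z hz hzy hσz
    have : Fact r.Prime := ⟨hr⟩
    exact step_triv p r hp h2 hrp 1 (eisG p r E) (nsmul_eisG p r E) A hA σ hσ (hσr h2) S hS y hyG
      hyS hry hy z (hzk z hz) hzy hσz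
  · intro S hSG hS y hyG hyS hry hy _ z hz hzy hσz
    have : Fact r.Prime := ⟨hr⟩
    obtain ⟨P, hP⟩ := Fermat.Agent.Lib.FrobeniusExists.exists_liesOverPrime hr
    exact step_mu p r hp h2 hrp 1 (eisG p r E) (nsmul_eisG p r E) ({2, 3, ℓ} : Finset ℕ) 1
      (Fermat.Agent.S15P.Desc.EisFlag60.isEisPiece_eisG hr hℓ hE) P hP A hA σ hσ (hσr h2) S hSG hS
      y hyG hyS hry hy z (hzk z hz) hzy hσz

end Fermat.Agent.S15P.Desc.StepH40
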